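import Fermat.Prelude.Def_AlgebraicGeometry_RelPicardAlgEquivZeroCut
import Fermat.Agent.Pic.Curve.Product

/-!
# Fibrewise algebraic equivalence to zero, over field-valued points of the base

The condition of algebraic equivalence to zero at every field valued point of the base, and the
fibre at such a point as a base change of the curve.
-/

noncomputable section

universe u

open CategoryTheory CategoryTheory.Limits AlgebraicGeometry RelPicard NeronModelInfra

namespace Fermat.Agent.Pic.Cut

variable {k : Type u} [Field k] {C : Scheme.{u}} {c : C ⟶ Spec (CommRingCat.of k)}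
  {ε : SchemeHomOver (𝟙 (Spec (CommRingCat.of k))) c} {T : Scheme.{u}}
  {t : T ⟶ Spec (CommRingCat.of k)}

/-- Algebraic equivalence to zero at the field points over `k`. -/
def PointwiseAlgEquivZero (M : RigidifiedLineBundle c ε t) : Prop :=
  ∀ (K : Type u) [Field K] [IsAlgClosed K] [Algebra k K] (f : SchemeHomOver (specMap k K) t),
    IsAlgEquivZero (pullback.snd c (specMap k K)) (M.pullbackAlong f).L

variable (c) in
/-- The fibre at a field point as the base change of the curve. -/
def fibreIso {K : Type u} [Field K] (s : Spec (CommRingCat.of K) ⟶ T) :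
    pullback (pullback.snd c t) s ≅ pullback c (s ≫ t) :=
  pullbackLeftPullbackSndIso c t s

theorem fibreIso_hom_fst {K : Type u} [Field K] (s : Spec (CommRingCat.of K) ⟶ T) :
    (fibreIso c (t := t) s).hom ≫ pullback.fst c (s ≫ t) =
      pullback.fst (pullback.snd c t) s ≫ pullback.fst c t :=
  pullbackLeftPullbackSndIso_hom_fst _ _ _

theorem fibreIso_hom_snd {K : Type u} [Field K] (s : Spec (CommRingCat.of K) ⟶ T) :
    (fibreIso c (t := t) s).hom ≫ pullback.snd c (s ≫ t) = fibreAt c t s :=
  pullbackLeftPullbackSndIso_hom_snd _ _ _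

theorem fibreIso_hom_baseChange {K : Type u} [Field K] (s : Spec (CommRingCat.of K) ⟶ T) :
    (fibreIso c (t := t) s).hom ≫ baseChangeSnd c (⟨s, rfl⟩ : SchemeHomOver (s ≫ t) t) =
      pullback.fst (pullback.snd c t) s := by
  apply pullback.hom_ext
  · rw [Category.assoc, baseChangeSnd, pullback.lift_fst, Category.comp_id, fibreIso_hom_fst]
  · rw [Category.assoc, baseChangeSnd, pullback.lift_snd, ← Category.assoc, fibreIso_hom_snd,
      pullback.condition]
    rfl

theorem fibreIso_inv_fst {K : Type u} [Field K] (s : Spec (CommRingCat.of K) ⟶ T) :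
    (fibreIso c (t := t) s).inv ≫ pullback.fst (pullback.snd c t) s =
      baseChangeSnd c (⟨s, rfl⟩ : SchemeHomOver (s ≫ t) t) := by
  rw [Iso.inv_comp_eq, fibreIso_hom_baseChange]

theorem fibreIso_inv_snd {K : Type u} [Field K] (s : Spec (CommRingCat.of K) ⟶ T) :
    (fibreIso c (t := t) s).inv ≫ fibreAt c t s = pullback.snd c (s ≫ t) := by
  rw [Iso.inv_comp_eq, fibreIso_hom_snd]

/-- Algebraic equivalence to zero on a fibre, on either of its descriptions. -/
theorem isAlgEquivZero_fibreAt_iff {K : Type u} [Field K] (M : RigidifiedLineBundle c ε t)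
    (s : Spec (CommRingCat.of K) ⟶ T) :
    IsAlgEquivZero (fibreAt c t s)
        ((Scheme.Modules.pullback (pullback.fst (pullback.snd c t) s)).obj M.L) ↔
      IsAlgEquivZero (pullback.snd c (s ≫ t))
        (M.pullbackAlong (⟨s, rfl⟩ : SchemeHomOver (s ≫ t) t)).L := by
  constructor
  · intro h
    refine (h.pullback _ (fibreIso_inv_snd s)).of_iso ?_
    exact (Scheme.Modules.pullbackComp _ _).app M.L ≪≫
      (Scheme.Modules.pullbackCongr (fibreIso_inv_fst s)).app M.L
  · intro h
    refine (h.pullback _ (fibreIso_hom_snd s)).of_iso ?_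
    exact (Scheme.Modules.pullbackComp _ _).app M.L ≪≫
      (Scheme.Modules.pullbackCongr (fibreIso_hom_baseChange s)).app M.L

/-- A field point of the base is that of an algebra structure. -/
theorem exists_algebra {K : Type u} [Field K]
    (u : Spec (CommRingCat.of K) ⟶ Spec (CommRingCat.of k)) :
    ∃ _ : Algebra k K, u = specMap k K :=
  ⟨(Spec.preimage u).hom.toAlgebra, (Spec.map_preimage u).symm⟩

/-- Algebraic equivalence to zero at a field point does not depend on the chosen base structure. -/
theorem isAlgEquivZero_pullbackAlong_congr {K : Type u} [Field K]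
    {u v : Spec (CommRingCat.of K) ⟶ Spec (CommRingCat.of k)} (huv : u = v)
    (M : RigidifiedLineBundle c ε t) (f : SchemeHomOver u t) (g : SchemeHomOver v t)
    (hfg : f.1 = g.1) (h : IsAlgEquivZero (pullback.snd c u) (M.pullbackAlong f).L) :
    IsAlgEquivZero (pullback.snd c v) (M.pullbackAlong g).L := by
  subst huv
  obtain rfl : f = g := Subtype.ext hfg
  exact h

/-- Fibrewise algebraic equivalence to zero can be checked on the restrictions to field points. -/
theorem fibrewiseAlgEquivZero_iff (M : RigidifiedLineBundle c ε t) :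
    FibrewiseAlgEquivZero M ↔ PointwiseAlgEquivZero M := by
  constructor
  · intro h K _ _ _ f
    exact isAlgEquivZero_pullbackAlong_congr f.2 M _ f rfl
      ((isAlgEquivZero_fibreAt_iff M f.1).mp (h K f.1))
  · intro h K _ _ s
    obtain ⟨_, hu⟩ := exists_algebra (s ≫ t)
    exact (isAlgEquivZero_fibreAt_iff M s).mpr
      (isAlgEquivZero_pullbackAlong_congr hu.symm M ⟨s, hu⟩ _ rfl (h K ⟨s, hu⟩))

end Fermat.Agent.Pic.Cut
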