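import Mathlib.AlgebraicGeometry.Geometrically.Integral
import Fermat.Prelude.Def_AlgebraicGeometry_RepresentsRelSubPic
import Fermat.Agent.Pic.Cut.Fibre
import Fermat.Agent.Pic.Repr.Sheaf

/-!
# Members of a represented condition with geometrically integral space are algebraically trivial

If `D` represents a condition and is geometrically integral, the universal bundle over `D_K`
connects every fibre to the trivial one.
-/

noncomputable section

universe u

open CategoryTheory CategoryTheory.Limits AlgebraicGeometry RelPicard NeronModelInfra
  GoodReductionJacobian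

namespace Fermat.Agent.Pic.Cut

variable {k : Type u} [Field k] {C : Scheme.{u}} {c : C ⟶ Spec (CommRingCat.of k)}
  {ε : SchemeHomOver (𝟙 (Spec (CommRingCat.of k))) c}
  {P : SubPicCondition c ε} {D : RelativePic0Designation k c}

/-- The universal family over the base change of the representing scheme. -/
def familyMap (D : RelativePic0Designation k c) {S : Scheme.{u}}
    (σ : S ⟶ Spec (CommRingCat.of k)) :
    pullback (pullback.snd c σ) (pullback.snd D.toBase σ) ⟶ pullback c D.toBase :=
  pullback.lift (pullback.fst _ _ ≫ pullback.fst c σ) (pullback.snd _ _ ≫ pullback.fst D.toBase σ)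
    (by
      rw [Category.assoc, Category.assoc, pullback.condition, pullback.condition, ← Category.assoc,
        ← Category.assoc, pullback.condition])

/-- A point as a section of the base change. -/
def pointSection {S : Scheme.{u}} {σ : S ⟶ Spec (CommRingCat.of k)}
    (g : SchemeHomOver σ D.toBase) : S ⟶ pullback D.toBase σ :=
  pullback.lift g.1 (𝟙 S) (by rw [g.2, Category.id_comp])

theorem pointSection_snd {S : Scheme.{u}} {σ : S ⟶ Spec (CommRingCat.of k)}
    (g : SchemeHomOver σ D.toBase) : pointSection g ≫ pullback.snd D.toBase σ = 𝟙 S :=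
  pullback.lift_snd _ _ _

theorem familyMap_point {K : Type u} [Field K]
    {σ : Spec (CommRingCat.of K) ⟶ Spec (CommRingCat.of k)} (g : SchemeHomOver σ D.toBase) :
    baseChangeSnd (pullback.snd c σ) (⟨pointSection g, pointSection_snd g⟩ :
        SchemeHomOver (𝟙 (Spec (CommRingCat.of K))) (pullback.snd D.toBase σ)) ≫ familyMap D σ =
      pullback.fst (pullback.snd c σ) (𝟙 _) ≫ baseChangeSnd c g := by
  apply pullback.hom_ext
  · simp only [familyMap, baseChangeSnd, Category.assoc, pullback.lift_fst, pullback.lift_fst_assoc,
      Category.comp_id]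
  · simp only [familyMap, baseChangeSnd, Category.assoc, pullback.lift_snd, pullback.lift_snd_assoc,
      pointSection, pullback.lift_fst]
    rw [← Category.assoc (pullback.fst _ _), pullback.condition, Category.comp_id]

/-- Over a geometrically integral representing scheme the universal bundle at a field point is
algebraically equivalent to zero. -/
theorem isAlgEquivZero_poincare (h : RepresentsRelSubPic c ε P D)
    [LocallyOfFiniteType D.toBase] [GeometricallyIntegral D.toBase]
    {K : Type u} [Field K] {σ : Spec (CommRingCat.of K) ⟶ Spec (CommRingCat.of k)}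
    (g : SchemeHomOver σ D.toBase) :
    IsAlgEquivZero (pullback.snd c σ) (h.poincare.pullbackAlong g).L := by
  have hz : (σ ≫ D.zeroSection) ≫ D.toBase = σ := by
    rw [Category.assoc, D.zeroSection_toBase, Category.comp_id]
  let z : SchemeHomOver σ D.toBase := ⟨σ ≫ D.zeroSection, hz⟩
  let ψ : SchemeHomOver σ (𝟙 (Spec (CommRingCat.of k))) := ⟨σ, Category.comp_id σ⟩
  refine ⟨pullback D.toBase σ, pullback.snd _ _, inferInstance, inferInstance,
    (Scheme.Modules.pullback (familyMap D σ)).obj h.poincare.L, h.poincare.isInvertible.pullback _,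
    ⟨pointSection z, pointSection_snd z⟩, ⟨pointSection g, pointSection_snd g⟩, ⟨?_⟩, ⟨?_⟩⟩
  · refine (Scheme.Modules.pullbackComp _ _).app _ ≪≫
      (Scheme.Modules.pullbackCongr (familyMap_point z)).app _ ≪≫
      ((Scheme.Modules.pullbackComp _ _).app _).symm ≪≫
      (Scheme.Modules.pullback _).mapIso ?_ ≪≫ Scheme.Modules.pullbackUnitIso _
    exact (Repr.pullbackAlong_postComp (⟨D.zeroSection, D.zeroSection_toBase⟩ :
          SchemeHomOver (𝟙 (Spec (CommRingCat.of k))) D.toBase) ψ h.poincare).some.symm ≪≫
      (RigidifiedLineBundle.pullbackAlong_congr ψ h.zero).some ≪≫ Scheme.Modules.pullbackUnitIso _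
  · exact (Scheme.Modules.pullbackComp _ _).app _ ≪≫
      (Scheme.Modules.pullbackCongr (familyMap_point g)).app _ ≪≫
      ((Scheme.Modules.pullbackComp _ _).app _).symm

/-- Every member of a condition represented by a geometrically integral scheme is fibrewise
algebraically equivalent to zero. -/
theorem fibrewiseAlgEquivZero_of_represents (h : RepresentsRelSubPic c ε P D)
    [LocallyOfFiniteType D.toBase] [GeometricallyIntegral D.toBase]
    {T : Scheme.{u}} {t : T ⟶ Spec (CommRingCat.of k)} (M : RigidifiedLineBundle c ε t)
    (hM : P.P t M) : FibrewiseAlgEquivZero M := by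
  rw [fibrewiseAlgEquivZero_iff]
  intro K _ _ _ f
  refine (isAlgEquivZero_poincare h (postComp (h.classify t M hM) f)).of_iso ?_
  exact (Repr.pullbackAlong_postComp (h.classify t M hM) f h.poincare).some.symm ≪≫
    (RigidifiedLineBundle.pullbackAlong_congr f (h.classify_spec t M hM)).some

end Fermat.Agent.Pic.Cut
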