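import Mathlib.AlgebraicGeometry.Geometrically.Integral
import Fermat.Agent.Pic.Cut.Fibre

/-!
# Algebraic equivalence to zero as a connected family over the curve

An algebraically trivial bundle on a fibre is joined to the trivial one by an invertible module
over the curve times a connected scheme.
-/

noncomputable section

universe u

open CategoryTheory CategoryTheory.Limits AlgebraicGeometry RelPicard NeronModelInfra

namespace Fermat.Agent.Pic.Cut

variable {k : Type u} [Field k] {C : Scheme.{u}} {c : C ⟶ Spec (CommRingCat.of k)}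

/-- An algebraically trivial bundle on a fibre is joined to the trivial one by an invertible
module over the curve times a connected scheme. -/
theorem exists_connected_family {K : Type u} [Field K]
    {σ : Spec (CommRingCat.of K) ⟶ Spec (CommRingCat.of k)}
    {L : (pullback c σ).Modules} (hL : IsAlgEquivZero (pullback.snd c σ) L) :
    ∃ (T' : Scheme.{u}) (t' : T' ⟶ Spec (CommRingCat.of k)) (_ : ConnectedSpace T')
      (M : (pullback c t').Modules) (_ : M.IsInvertible) (p₀ p₁ : SchemeHomOver σ t'),
      Nonempty ((Scheme.Modules.pullback (baseChangeSnd c p₀)).obj M ≅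
        SheafOfModules.unit (pullback c σ).ringCatSheaf) ∧
      Nonempty ((Scheme.Modules.pullback (baseChangeSnd c p₁)).obj M ≅ L) := by
  obtain ⟨T', h, -, hgi, M, hM, t₀, t₁, ⟨e₀⟩, ⟨e₁⟩⟩ := hL
  have : GeometricallyIntegral h := hgi
  have : IrreducibleSpace T' :=
    (GeometricallyIrreducible.geometrically_irreducibleSpace (f := h) (𝟙 _) (𝟙 _) h
      ⟨⟨Category.comp_id h ▸ (Category.id_comp h).symm ▸ rfl⟩, ⟨IsPullback.of_id_fst.isLimit⟩⟩)
  let a := pullbackLeftPullbackSndIso c σ h
  let b : pullback c σ ⟶ pullback (pullback.snd c σ) (𝟙 (Spec (CommRingCat.of K))) :=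
    pullback.lift (𝟙 _) (pullback.snd c σ) (by simp)
  have hb : b ≫ pullback.fst _ _ = 𝟙 _ := pullback.lift_fst _ _ _
  have key : ∀ tt : SchemeHomOver (𝟙 (Spec (CommRingCat.of K))) h,
      ∀ p : SchemeHomOver σ (h ≫ σ), p.1 = tt.1 →
        baseChangeSnd c p ≫ a.inv = b ≫ baseChangeSnd (pullback.snd c σ) tt := by
    intro tt p hp
    rw [Iso.comp_inv_eq]
    apply pullback.hom_ext
    · simp only [a, b, baseChangeSnd, Category.assoc, pullback.lift_fst,
        pullbackLeftPullbackSndIso_hom_fst, pullback.lift_fst_assoc, Category.comp_id,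
        Category.id_comp]
    · simp only [a, b, baseChangeSnd, Category.assoc, pullback.lift_snd, hp,
        pullbackLeftPullbackSndIso_hom_snd, pullback.lift_snd_assoc]
  let p : SchemeHomOver (𝟙 (Spec (CommRingCat.of K))) h → SchemeHomOver σ (h ≫ σ) := fun tt =>
    ⟨tt.1, by rw [← Category.assoc, tt.2, Category.id_comp]⟩
  let trans : ∀ tt, (Scheme.Modules.pullback (baseChangeSnd c (p tt))).obj
      ((Scheme.Modules.pullback a.inv).obj M) ≅ (Scheme.Modules.pullback b).obj
        ((Scheme.Modules.pullback (baseChangeSnd (pullback.snd c σ) tt)).obj M) := fun tt =>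
    (Scheme.Modules.pullbackComp _ _).app M ≪≫
      (Scheme.Modules.pullbackCongr (key tt (p tt) rfl)).app M ≪≫
      ((Scheme.Modules.pullbackComp _ _).app M).symm
  refine ⟨T', h ≫ σ, inferInstance, (Scheme.Modules.pullback a.inv).obj M, hM.pullback _,
    p t₀, p t₁, ⟨?_⟩, ⟨?_⟩⟩
  · exact trans t₀ ≪≫ (Scheme.Modules.pullback b).mapIso e₀ ≪≫ Scheme.Modules.pullbackUnitIso _
  · exact trans t₁ ≪≫ (Scheme.Modules.pullback b).mapIso e₁ ≪≫
      (Scheme.Modules.pullbackComp _ _).app L ≪≫ (Scheme.Modules.pullbackCongr hb).app L ≪≫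
      (Scheme.Modules.pullbackId _).app L

end Fermat.Agent.Pic.Cut
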