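import Mathlib.FieldTheory.IsAlgClosed.AlgebraicClosure
import Fermat.Agent.Pic.Bridge.Degree
import Fermat.Agent.Pic.Cut.Converse
import Fermat.Agent.Pic.Cut.Forward
import Fermat.Agent.Pic.Repr.Classify

/-!
# Degree zero and algebraic equivalence to zero

A connected family keeps the Euler characteristic; conversely the degree zero condition is
algebraically trivial once a geometrically integral scheme represents it.
-/

noncomputable section

universe u

open CategoryTheory CategoryTheory.Limits AlgebraicGeometry RelPicard NeronModelInfra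
  GoodReductionJacobian
open Fermat.Agent.Pic.Cech Fermat.Agent.Pic.Repr

namespace Fermat.Agent.Pic.Parameter

variable {k : Type u} [Field k] [IsAlgClosed k] {C : Scheme.{u}} [IsIntegral C]
  {c : C ⟶ Spec (CommRingCat.of k)} [IsProper c] [SmoothOfRelativeDimension 1 c]
  {ε : SchemeHomOver (𝟙 (Spec (CommRingCat.of k))) c}
  (p : Parameter c) {T : Scheme.{u}} {t : T ⟶ Spec (CommRingCat.of k)}

/-- A bundle algebraically equivalent to zero on a fibre has degree zero there. -/
theorem chiAt_eq_of_isAlgEquivZero (L : (pullback c t).Modules) (hL : L.IsInvertible) {K : Type u}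
    [Field K] [Algebra k K] (f : SchemeHomOver (specMap k K) t)
    (h : IsAlgEquivZero (pullback.snd c (specMap k K)) (pullMod f L)) :
    p.chiAt L hL f = (unitPre p.cover k).chi := by
  obtain ⟨T', t', _, M, hM, p₀, p₁, ⟨e₀⟩, ⟨e₁⟩⟩ := Cut.exists_connected_family h
  let i : SchemeHomOver (specMap k K) (specMap k K) := ⟨𝟙 _, Category.id_comp _⟩
  have h0 : p.chiAt M hM p₀ = (unitPre p.cover k).chi := by
    rw [show p₀ = postComp p₀ i from Subtype.ext (Category.id_comp _).symm,
      ← p.chiAt_pullback M hM p₀ (hM.pullback _) i,
      p.chiAt_eq_of_iso _ (Scheme.Modules.isInvertible_unit _) e₀ i]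
    exact p.fibresDegZero_unit _ K i
  rw [show f = postComp f i from Subtype.ext (Category.id_comp _).symm,
    ← p.chiAt_pullback L hL f (hL.pullback _) i,
    p.chiAt_eq_of_iso _ (hM.pullback _) e₁.symm i, p.chiAt_pullback M hM p₁ _ i]
  exact FibresDegZero.of_point p₀ h0 K _

/-- Algebraically trivial on the fibres implies degree zero. -/
theorem degZero_of_algEquivZero (M : RigidifiedLineBundle c ε t) (h : FibrewiseAlgEquivZero M) :
    (p.degZero ε).P t M := by
  rw [Cut.fibrewiseAlgEquivZero_iff] at h
  intro K _ _ f
  obtain ⟨r, -, hr⟩ := p.exists_chiAt_fun M.L M.isInvertible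
  let g : SchemeHomOver (specMap k (AlgebraicClosure K)) (specMap k K) :=
    specOver K (AlgebraicClosure K)
  rw [← p.chiAt_eq_of_isAlgEquivZero M.L M.isInvertible (postComp f g)
    (h (AlgebraicClosure K) (postComp f g)),
    hr _ (postComp f g) (default : PrimeSpectrum (AlgebraicClosure K)),
    hr K f (g.1 (default : PrimeSpectrum (AlgebraicClosure K)))]
  rfl

variable {D : RelativePic0Designation k c} (h : RepresentsRelSubPic c ε (p.degZero ε) D)
  [LocallyOfFiniteType D.toBase] [GeometricallyIntegral D.toBase]

include h in
/-- Degree zero is algebraic equivalence to zero. -/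
theorem degZero_iff_algEquivZeroCut (M : RigidifiedLineBundle c ε t) :
    (p.degZero ε).P t M ↔ (algEquivZeroCut c ε).P t M :=
  ⟨Cut.fibrewiseAlgEquivZero_of_represents h M, p.degZero_of_algEquivZero M⟩

/-- A geometrically integral scheme representing degree zero represents algebraic equivalence to
zero. -/
def representsAlgEquivZeroCut : RepresentsRelSubPic c ε (algEquivZeroCut c ε) D where
  poincare := h.poincare
  poincare_mem := (p.degZero_iff_algEquivZeroCut h _).1 h.poincare_mem
  univ t M hM := h.univ t M ((p.degZero_iff_algEquivZeroCut h M).2 hM)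
  zero := h.zero

end Fermat.Agent.Pic.Parameter
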